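import Fermat.Agent.ExistenceTheorem.HilbertClassField
import Fermat.Agent.ArtinL.Formulas
import Fermat.Agent.ArtinReciprocity.HeckeComparison
import Mathlib.NumberTheory.NumberField.Discriminant.Different

/-!
# The unramified quadratic extension of a class group character

A character `χ` of order two of the class group of `K` has a quadratic extension `L`, unramified at
all finite and infinite places, with `ζ_L = ζ_K Σ χ(C) ζ(C, s)`, `|d_L| = |d_K|²` and twice as many
real and complex places.
-/

set_option autoImplicit false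
set_option linter.unusedSectionVars false
set_option linter.style.haveILetI false

noncomputable section

universe u

open NumberField NumberField.InfinitePlace IsDedekindDomain Module Finset
open FA.Hecke (heckeL logF fPow classPart lHom rayCharFn rayCharFn_apply isRayChar_rayCharFn
  RayClassGroup rayClass rayClass_surjective coprimeIdeals heckeL_eq_sum)
open FA.Ext (primeIdeal)
open FA.ArtinL (artinL artinLog inducedFn galIncl term summable_term artinL_add artinL_one
  dedekindZeta_eq_artinL)
open FA.ArtinRec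
open scoped nonZeroDivisors Classical

namespace FA.HeckeDiff

variable {K L : Type*} [Field K] [NumberField K] [Field L] [NumberField L] [Algebra K L]
  [IsGalois K L]

theorem unramified_of_not_isRam (h : ∀ v : HeightOneSpectrum (𝓞 K), ¬ IsRam L v) :
    Algebra.Unramified (𝓞 K) (𝓞 L) := by
  refine Algebra.unramified_iff_forall.2 fun q => ?_
  rcases eq_or_ne q.1 ⊥ with hq | hq
  · have hbot := Algebra.isUnramifiedAt_bot (R := 𝓞 K) (S := 𝓞 L)
    obtain ⟨q, hqp⟩ := q
    subst hq
    exact hbot
  · let Q : HeightOneSpectrum (𝓞 L) := ⟨q.1, q.2, hq⟩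
    have h1 := eIdx_eq_one (K := K) (Q := Q) (h _)
    haveI := q.2
    haveI : Q.asIdeal.LiesOver (belowP K Q).asIdeal := ⟨rfl⟩
    rw [eIdx, Ideal.ramificationIdx'_eq_ramificationIdx _ _ (belowP K Q).ne_bot] at h1
    exact Ideal.ramificationIdx_eq_one_iff.1 h1

omit [IsGalois K L] in
theorem natAbs_discr_of_unramified [Algebra.Unramified (𝓞 K) (𝓞 L)] :
    (discr L).natAbs = (discr K).natAbs ^ finrank K L := by
  have htop : differentIdeal (𝓞 K) (𝓞 L) = ⊤ := by
    by_contra hne
    obtain ⟨P, hP, hle⟩ := Ideal.exists_le_maximal _ hne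
    have hP0 : P ≠ ⊥ := fun h0 => differentIdeal_ne_bot (le_bot_iff.1 (h0 ▸ hle))
    haveI := hP.isPrime
    exact not_dvd_differentIdeal_iff.2 (Algebra.unramified_iff_forall.1 inferInstance ⟨P, hP.isPrime⟩)
      (Ideal.dvd_iff_le.2 hle)
  rw [natAbs_discr_eq_absNorm_differentIdeal_mul_natAbs_discr_pow K (𝓞 K) L (𝓞 L), htop,
    ← Ideal.one_eq_top, map_one, one_mul]

/-- The places of an unramified extension. -/
theorem places_of_unramified (h : ∀ w : InfinitePlace K, w.IsUnramifiedIn L) :
    nrRealPlaces L = nrRealPlaces K * finrank K L ∧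
      nrComplexPlaces L = nrComplexPlaces K * finrank K L := by
  have h1 := card_eq_card_isUnramifiedIn K L
  rw [Finset.filter_true_of_mem (fun w _ => h w), Finset.compl_univ, Finset.card_empty, zero_mul,
    add_zero, Finset.card_univ, card_eq_nrRealPlaces_add_nrComplexPlaces,
    card_eq_nrRealPlaces_add_nrComplexPlaces] at h1
  have h2 := card_add_two_mul_card_eq_rank L
  rw [← Module.finrank_mul_finrank ℚ K L, ← card_add_two_mul_card_eq_rank K] at h2
  rw [add_mul] at h1 h2
  have h3 : 2 * nrComplexPlaces K * finrank K L = 2 * (nrComplexPlaces K * finrank K L) := mul_assoc _ _ _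
  constructor <;> omega

/-- The regular character of a group of order two. -/
theorem inducedFn_eq_one_add (hcard : Nat.card (L ≃ₐ[K] L) = 2) (ψ : (L ≃ₐ[K] L) →* ℂˣ)
    (hψ : Function.Injective ψ) :
    inducedFn K (fun _ : L ≃ₐ[L] L => (1 : ℂ)) =
      (fun _ : L ≃ₐ[K] L => (1 : ℂ)) + fun σ => (ψ σ : ℂ) := by
  haveI : Subsingleton (L ≃ₐ[L] L) := ⟨fun a b => AlgEquiv.ext fun x => by
    rw [show a x = x from a.commutes x, show b x = x from b.commutes x]⟩
  haveI : Unique (L ≃ₐ[L] L) := uniqueOfSubsingleton 1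
  funext g
  have hd : ∀ a : L ≃ₐ[L] L, galIncl K L L a = 1 := fun a => by
    rw [Subsingleton.elim a 1, map_one]
  simp only [inducedFn, Nat.card_unique, Nat.cast_one, inv_one, one_mul, Fintype.sum_unique, hd,
    Pi.add_apply]
  rcases eq_or_ne g 1 with rfl | hg
  · rw [Finset.sum_congr rfl fun x _ => if_pos (by group), Finset.sum_const, map_one, Units.val_one,
      Finset.card_univ, ← Nat.card_eq_fintype_card, hcard]
    norm_num
  · rw [Finset.sum_eq_zero fun x _ => if_neg fun e => hg ?_]
    · have h2 : ψ g * ψ g = 1 := by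
        rw [← map_mul, ← sq, ← hcard, pow_card_eq_one', map_one]
      have h3 : ((ψ g : ℂ) - 1) * ((ψ g : ℂ) + 1) = 0 := by
        have := congrArg Units.val h2
        rw [Units.val_mul, Units.val_one] at this
        linear_combination this
      rw [eq_neg_of_add_eq_zero_left ((mul_eq_zero.1 h3).resolve_left fun e => hg (hψ (by
        rw [map_one]; exact Units.ext (by simpa using sub_eq_zero.1 e))))]
      ring
    · calc g = x⁻¹ * (x * g * x⁻¹) * x := by group
        _ = 1 := by rw [← e]; group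

/-- **The quadratic field of a character.** -/
theorem exists_quadratic_field (K : Type u) [Field K] [NumberField K]
    (χ : ClassGroup (𝓞 K) →* ℂˣ) (hχ2 : ∀ C, χ C ^ 2 = 1) (hχ : χ ≠ 1) :
    ∃ (L : Type u) (_ : Field L) (_ : NumberField L),
      (discr L).natAbs = (discr K).natAbs ^ 2 ∧ nrRealPlaces L = nrRealPlaces K * 2 ∧
        nrComplexPlaces L = nrComplexPlaces K * 2 ∧
        ∀ s : ℂ, 1 < s.re → dedekindZeta L s =
          dedekindZeta K s * ∑ C : ClassGroup (𝓞 K), (χ C : ℂ) * FA.PrimeIdeal.classZ C s := by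
  set Φ := χ.comp (toClassGroup K) with hΦ
  obtain ⟨L, _, _, _, _, _, hL⟩ := exists_classField (unitModulus_ne_bot K) (∅ : Set (InfinitePlace K))
    Φ.ker (le_trans (ker_toClassGroup K).ge fun γ hγ => by
      rw [MonoidHom.mem_ker] at hγ ⊢; rw [hΦ, MonoidHom.comp_apply, hγ, map_one])
  have hΦ2 : ∀ γ, Φ γ ^ 2 = 1 := fun γ => hχ2 _
  -- the index is two
  have hcard : Nat.card (L ≃ₐ[K] L) = 2 := by
    rw [hL.card_eq, Subgroup.index_ker]
    have hle : Φ.range ≤ rootsOfUnity 2 ℂ := by
      rintro _ ⟨γ, rfl⟩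
      exact (mem_rootsOfUnity 2 _).2 (hΦ2 γ)
    have h1 : Nat.card Φ.range ≤ 2 := by
      exact (Nat.card_le_card_of_injective (Subgroup.inclusion hle)
        (Subgroup.inclusion_injective hle)).trans (card_rootsOfUnity ℂ 2)
    have h2 : 1 < Nat.card Φ.range := by
      haveI : Finite Φ.range := Finite.of_injective _ (Subgroup.inclusion_injective hle)
      rw [Finite.one_lt_card_iff_nontrivial, Subgroup.nontrivial_iff_ne_bot, ne_eq,
        MonoidHom.range_eq_bot_iff]
      intro h
      refine hχ (MonoidHom.ext fun C => ?_)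
      obtain ⟨γ, rfl⟩ := toClassGroup_surjective K C
      exact DFunLike.congr_fun h γ
    omega
  obtain ⟨ω, hsurj, hker, hω⟩ := hL.artin
  set ψ : (L ≃ₐ[K] L) →* ℂˣ := ω.liftOfSurjective hsurj ⟨Φ, hker.le⟩ with hψdef
  have hψω : ∀ γ, ψ (ω γ) = Φ γ := fun γ => MonoidHom.liftOfRightInverse_comp_apply _ _ _ _ γ
  have hψ : Function.Injective ψ := (injective_iff_map_eq_one ψ).2 fun σ hσ => by
    obtain ⟨γ, rfl⟩ := hsurj σ
    rw [hψω] at hσ
    rw [← MonoidHom.mem_ker, hker]
    exact hσ
  have hunr : ∀ v, ¬ IsRam L v := fun v => hL.unram v (sup_top_eq _)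
  haveI := unramified_of_not_isRam hunr
  have hfin : finrank K L = 2 := by rw [← IsGalois.card_aut_eq_finrank K L, hcard]
  obtain ⟨hr, hc⟩ := places_of_unramified (L := L) fun w => hL.unramInf w (Set.notMem_empty _)
  rw [hfin] at hr hc
  refine ⟨L, inferInstance, inferInstance, by rw [natAbs_discr_of_unramified (K := K) (L := L), hfin],
    hr, hc, fun s hs => ?_⟩
  set f := rayCharFn (unitModulus_ne_bot K) Φ with hf
  have hray := isRayChar_rayCharFn (unitModulus_ne_bot K) Φ
  have hL1 : artinL (fun σ => (ψ σ : ℂ)) s = heckeL f s := by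
    rw [← hray.exp_logF hs, artinL, artinLog, (summable_term hs _).tsum_prod, logF]
    congr 1
    refine tsum_congr fun v => ?_
    have hfv : f v.asIdeal = (ψ (artinAt L v) : ℂ) := by
      rw [hf, show v.asIdeal = (⟨primeIdeal v, sup_top_eq _⟩ : coprimeIdeals (⊤ : Ideal (𝓞 K))).1.1 from rfl,
        rayCharFn_apply, ← hψω, hω]
      exact congrArg (fun g => (ψ g : ℂ)) (artinHom_prime v)
    have hlt : ‖fPow f s v‖ < 1 := lt_of_le_of_lt (hray.norm_fPow_le_half hs.le v) (by norm_num)
    rw [← (Complex.hasSum_taylorSeries_neg_log' hlt).tsum_eq]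
    refine tsum_congr fun k => ?_
    rw [term, coef_of_not_isRam ψ (hunr v), ← hfv, ← mul_pow]
    rfl
  have hpart : ∀ C, classPart f C s = (χ C : ℂ) * FA.PrimeIdeal.classZ C s := fun C => by
    rw [classPart, FA.PrimeIdeal.classZ, ← tsum_mul_left]
    refine tsum_congr fun I => ?_
    have hI : f (I.1 : Ideal (𝓞 K)) = (χ C : ℂ) := by
      rw [hf, show (I.1 : Ideal (𝓞 K)) =
          (⟨I.1, sup_top_eq _⟩ : coprimeIdeals (⊤ : Ideal (𝓞 K))).1.1 from rfl,
        rayCharFn_apply, hΦ, MonoidHom.comp_apply, toClassGroup_apply, I.2]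
    rw [FA.Hecke.lHom_apply, hI]
  rw [dedekindZeta_eq_artinL (K := K) (L := L) hs L, inducedFn_eq_one_add hcard ψ hψ,
    artinL_add hs, artinL_one hs, hL1, heckeL_eq_sum hray hs]
  rw [Finset.sum_congr rfl fun C _ => hpart C]

end FA.HeckeDiff
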