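import Fermat.Agent.HeckeDifferent.QuadraticField
import Fermat.Agent.HeckeBS.Residue
import Mathlib.RingTheory.Ideal.Norm.RelNorm

/-!
# The class of the different is a square

For a character `χ` of order two of the class group the completed zeta function of the quadratic
field of `χ` is that of `K` times `Σ χ(C) Ξ(C, s)`, and `s ↦ 1 - s` multiplies the second factor by
`χ(𝔇)`; so `χ(𝔇) = 1`, for every such `χ`.
-/

set_option autoImplicit false
set_option linter.unusedSectionVars false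
set_option linter.style.haveILetI false

noncomputable section

universe u

open NumberField NumberField.InfinitePlace Complex Module Filter Topology
open FA.HeckeFE FA.HeckeBS
open scoped nonZeroDivisors Classical

namespace FA.HeckeDiff

variable (K : Type u) [Field K] [NumberField K]

theorem xiFun_two_ne_zero : xiFun K 2 ≠ 0 := by
  have h2 : (1 : ℝ) < (2 : ℂ).re := by norm_num
  rw [xiFun_half K h2, gamFac]
  refine mul_ne_zero (by norm_num) (mul_ne_zero (mul_ne_zero ?_ (mul_ne_zero ?_ ?_)) ?_)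
  · exact cpow_ne_zero_iff.2 (Or.inl (discr_natAbs_ne_zero K))
  · exact pow_ne_zero _ (Gammaℝ_ne_zero_of_re_pos (by norm_num))
  · rw [← Gammaℝ_mul_Gammaℝ_add_one]
    exact pow_ne_zero _ (mul_ne_zero (Gammaℝ_ne_zero_of_re_pos (by norm_num))
      (Gammaℝ_ne_zero_of_re_pos (by norm_num)))
  · exact norm_pos_iff.1 ((Real.exp_pos _).trans_le (norm_dedekindZeta_bounds (K := K) h2).1)

/-- The twist of the class functions. -/
def twistXi (χ : ClassGroup (𝓞 K) →* ℂˣ) (s : ℂ) : ℂ :=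
  ∑ C : ClassGroup (𝓞 K), (χ C : ℂ) * classXi C s

theorem differentiable_twistXi (χ : ClassGroup (𝓞 K) →* ℂˣ) : Differentiable ℂ (twistXi K χ) :=
  Differentiable.fun_sum fun C _ => (differentiable_classXi C).const_mul _

theorem twistXi_one_sub (χ : ClassGroup (𝓞 K) →* ℂˣ) (hχ2 : ∀ C, χ C ^ 2 = 1) (s : ℂ) :
    twistXi K χ (1 - s) = (χ (ClassGroup.mk0 (different K)) : ℂ) * twistXi K χ s := by
  simp only [twistXi, classXi_one_sub, Finset.mul_sum]
  refine Fintype.sum_equiv ((Equiv.inv _).trans (Equiv.mulLeft (ClassGroup.mk0 (different K)))) _ _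
    fun C => ?_
  simp only [Equiv.trans_apply, Equiv.inv_apply, Equiv.coe_mulLeft]
  rw [← mul_assoc, ← Units.val_mul, ← map_mul, ← mul_assoc, map_mul, map_mul, map_inv]
  rw [inv_eq_of_mul_eq_one_left (show χ C * χ C = 1 by rw [← sq]; exact hχ2 C), ← sq, hχ2, one_mul]

theorem twistXi_half (χ : ClassGroup (𝓞 K) →* ℂˣ) (hχ : χ ≠ 1) {s : ℂ} (hs : 1 < s.re) :
    twistXi K χ s = gamFac K s * ∑ C : ClassGroup (𝓞 K), (χ C : ℂ) * FA.PrimeIdeal.classZ C s := by
  have h0 : ∑ C : ClassGroup (𝓞 K), (χ C : ℂ) = 0 := by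
    have h := sum_hom_units ((Units.coeHom ℂ).comp χ)
    rw [if_neg fun e => hχ (MonoidHom.ext fun C => Units.ext (DFunLike.congr_fun e C))] at h
    simpa using h
  set P := 2 * (jac K : ℂ) / (Units.torsionOrder K : ℂ) / (s * (1 - s))
  have h1 : ∀ C : ClassGroup (𝓞 K), (χ C : ℂ) * classXi C s =
      gamFac K s * ((χ C : ℂ) * FA.PrimeIdeal.classZ C s) + (χ C : ℂ) * P := fun C => by
    rw [mul_left_comm, classXi_half C hs]; ring
  rw [twistXi, Finset.sum_congr rfl fun C _ => h1 C, Finset.sum_add_distrib, ← Finset.mul_sum,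
    ← Finset.sum_mul, h0, zero_mul, add_zero]

theorem char_different_eq_one (χ : ClassGroup (𝓞 K) →* ℂˣ) (hχ2 : ∀ C, χ C ^ 2 = 1) :
    χ (ClassGroup.mk0 (different K)) = 1 := by
  by_cases hχ : χ = 1
  · rw [hχ]; rfl
  obtain ⟨L, _, _, hd, hr, hc, hζ⟩ := exists_quadratic_field K χ hχ2 hχ
  have hgam : ∀ s, gamFac L s = gamFac K s * gamFac K s := fun s => by
    rw [gamFac, gamFac, hd, hr, hc, sq, Nat.cast_mul, natCast_mul_natCast_cpow, pow_mul, pow_mul]
    ring
  have hhalf : ∀ s : ℂ, 1 < s.re → xiFun L s = xiFun K s * twistXi K χ s := fun s hs => by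
    rw [xiFun_half L hs, xiFun_half K hs, twistXi_half K χ hχ hs, hζ s hs, hgam]
    ring
  have heq : xiFun L = fun s => xiFun K s * twistXi K χ s :=
    FA.PrimeIdeal.eq_of_eq_halfPlane (differentiable_xiFun L)
      ((differentiable_xiFun K).mul (differentiable_twistXi K χ)) fun s hs => hhalf s hs
  have h2 : xiFun L 2 = xiFun K 2 * ((χ (ClassGroup.mk0 (different K)) : ℂ) * twistXi K χ 2) := by
    have h := congrFun heq (1 - 2)
    rw [xiFun_one_sub, xiFun_one_sub, twistXi_one_sub K χ hχ2] at h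
    exact h
  have h3 : xiFun L 2 = xiFun K 2 * twistXi K χ 2 := congrFun heq 2
  have hne := xiFun_two_ne_zero L
  refine Units.ext (mul_right_cancel₀ hne ?_)
  rw [Units.val_one, one_mul]
  nth_rewrite 1 [h3]
  rw [h2]
  ring

/-- **Hecke's theorem.** -/
theorem isSquare_mk0_different : IsSquare (ClassGroup.mk0 (different K)) := by
  set D := ClassGroup.mk0 (different K)
  set S := (powMonoidHom 2 : ClassGroup (𝓞 K) →* ClassGroup (𝓞 K)).range
  by_contra hD
  have hne : (D : ClassGroup (𝓞 K) ⧸ S) ≠ 1 := fun h => hD (by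
    obtain ⟨C, hC⟩ := (QuotientGroup.eq_one_iff D).1 h
    exact ⟨C, by rw [← hC, powMonoidHom_apply, sq]⟩)
  haveI : NeZero (Monoid.exponent (ClassGroup (𝓞 K) ⧸ S) : ℂ) :=
    ⟨Nat.cast_ne_zero.mpr Monoid.exponent_ne_zero_of_finite⟩
  obtain ⟨φ, hφ⟩ := CommGroup.exists_apply_ne_one_of_hasEnoughRootsOfUnity
    (ClassGroup (𝓞 K) ⧸ S) ℂ hne
  refine hφ (char_different_eq_one K (φ.comp (QuotientGroup.mk' S)) fun C => ?_)
  rw [← map_pow, MonoidHom.comp_apply, QuotientGroup.mk'_apply,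
    (QuotientGroup.eq_one_iff (C ^ 2)).2 (MonoidHom.mem_range.2 ⟨C, rfl⟩), map_one]

variable (L : Type*) [Field L] [NumberField L] [Algebra K L]

/-- The different of an extension as a member of `(Ideal (𝓞 L))⁰`. -/
def relDifferent : (Ideal (𝓞 L))⁰ :=
  ⟨differentIdeal (𝓞 K) (𝓞 L), mem_nonZeroDivisors_iff_ne_zero.2 differentIdeal_ne_bot⟩

/-- A monoid map of ideals that preserves principal ideals preserves square classes. -/
theorem isSquare_map {R S : Type*} [CommRing R] [IsDedekindDomain R] [CommRing S]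
    [IsDedekindDomain S] (F : Ideal R →* Ideal S)
    (hF0 : ∀ I : Ideal R, I ≠ ⊥ → F I ≠ ⊥)
    (hFp : ∀ x : R, x ≠ 0 → ∃ y : S, y ≠ 0 ∧ F (Ideal.span {x}) = Ideal.span {y})
    (I : (Ideal R)⁰) (J : (Ideal S)⁰) (hJ : (J : Ideal S) = F I.1)
    (h : IsSquare (ClassGroup.mk0 I)) : IsSquare (ClassGroup.mk0 J) := by
  obtain ⟨C, hC⟩ := h
  obtain ⟨A, rfl⟩ := ClassGroup.mk0_surjective C
  rw [← map_mul, ClassGroup.mk0_eq_mk0_iff] at hC
  obtain ⟨x, y, hx, hy, hxy⟩ := hC
  obtain ⟨x', hx', hxx⟩ := hFp x hx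
  obtain ⟨y', hy', hyy⟩ := hFp y hy
  refine ⟨ClassGroup.mk0 ⟨F A.1, mem_nonZeroDivisors_iff_ne_zero.2
    (hF0 _ (nonZeroDivisors.coe_ne_zero A))⟩, ?_⟩
  rw [← map_mul, ClassGroup.mk0_eq_mk0_iff]
  refine ⟨x', y', hx', hy', ?_⟩
  rw [hJ, Submonoid.coe_mul, ← hxx, ← hyy, ← map_mul, ← map_mul, ← map_mul, hxy, Submonoid.coe_mul]

/-- **The relative different.** -/
theorem isSquare_mk0_relDifferent : IsSquare (ClassGroup.mk0 (relDifferent K L)) := by
  set E : (Ideal (𝓞 L))⁰ := ⟨(differentIdeal ℤ (𝓞 K)).map (algebraMap (𝓞 K) (𝓞 L)),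
    mem_nonZeroDivisors_iff_ne_zero.2
      ((Ideal.map_eq_bot_iff_of_injective (FaithfulSMul.algebraMap_injective (𝓞 K) (𝓞 L))).not.2
        differentIdeal_ne_bot)⟩
  have hE : IsSquare (ClassGroup.mk0 E) :=
    isSquare_map (Ideal.mapHom (algebraMap (𝓞 K) (𝓞 L))).toMonoidHom
      (fun I hI => (Ideal.map_eq_bot_iff_of_injective
        (FaithfulSMul.algebraMap_injective (𝓞 K) (𝓞 L))).not.2 hI)
      (fun x hx => ⟨algebraMap (𝓞 K) (𝓞 L) x,
        (map_ne_zero_iff _ (FaithfulSMul.algebraMap_injective (𝓞 K) (𝓞 L))).2 hx,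
        (Ideal.map_span _ _).trans (by rw [Set.image_singleton])⟩)
      (different K) E rfl (isSquare_mk0_different K)
  have hmul : relDifferent K L * E = different L := Subtype.ext
    (differentIdeal_eq_differentIdeal_mul_differentIdeal ℤ (𝓞 K) (𝓞 L)).symm
  have h := (isSquare_mk0_different L).div hE
  rwa [← hmul, map_mul, mul_div_cancel_right] at h

/-- **The relative discriminant.** -/
theorem isSquare_mk0_relNorm_different (J : (Ideal (𝓞 K))⁰)
    (hJ : (J : Ideal (𝓞 K)) = Ideal.relNorm (𝓞 K) (differentIdeal (𝓞 K) (𝓞 L))) :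
    IsSquare (ClassGroup.mk0 J) :=
  isSquare_map (Ideal.relNorm (𝓞 K) : Ideal (𝓞 L) →*₀ Ideal (𝓞 K)).toMonoidHom
    (fun _ hI h => hI (Ideal.relNorm_eq_bot_iff.1 h))
    (fun x hx => ⟨Algebra.intNorm (𝓞 K) (𝓞 L) x, fun h => hx (Algebra.intNorm_eq_zero.1 h),
      Ideal.relNorm_singleton (𝓞 K) x⟩)
    (relDifferent K L) J hJ (isSquare_mk0_relDifferent K L)

end FA.HeckeDiff
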